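import Mathlib

/-!
# Row LT, tower T7, leaf T7.L2.2.A `AtomsC561` (SPARE, helper719): matrix lemmas -- OFF-MAIN

Mathlib only.
-/

set_option autoImplicit false

open scoped Matrix

noncomputable section

namespace Fermat.Agent.LT.T7.H719

variable {n : Type} [Fintype n] [DecidableEq n]

/-- A matrix with `Mᴴ M = 1` also satisfies `M Mᴴ = 1`. -/
theorem mul_conjTranspose_of719 {M : Matrix n n ℂ} (h : Mᴴ * M = 1) : M * Mᴴ = 1 :=
  mul_eq_one_comm.1 h

/-- The adjoint of a unitary matrix commutes with what the matrix commutes with. -/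
theorem commute_conjTranspose719 {M X : Matrix n n ℂ} (h : Mᴴ * M = 1) (hc : Commute X M) :
    Commute X Mᴴ := by
  have h' := mul_conjTranspose_of719 h
  show X * Mᴴ = Mᴴ * X
  calc X * Mᴴ = (Mᴴ * M) * (X * Mᴴ) := by rw [h, one_mul]
    _ = Mᴴ * ((M * X) * Mᴴ) := by simp only [mul_assoc]
    _ = Mᴴ * ((X * M) * Mᴴ) := by rw [hc.eq]
    _ = Mᴴ * X * (M * Mᴴ) := by simp only [mul_assoc]
    _ = Mᴴ * X := by rw [h', mul_one]

/-- Intertwining passes to the adjoints of unitary matrices. -/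
theorem intertwine_conjTranspose719 {A M N : Matrix n n ℂ} (hM : Mᴴ * M = 1) (hN : Nᴴ * N = 1)
    (h : A * M = N * A) : A * Mᴴ = Nᴴ * A := by
  have hM' := mul_conjTranspose_of719 hM
  calc A * Mᴴ = (Nᴴ * N) * (A * Mᴴ) := by rw [hN, one_mul]
    _ = Nᴴ * ((N * A) * Mᴴ) := by simp only [mul_assoc]
    _ = Nᴴ * ((A * M) * Mᴴ) := by rw [h]
    _ = Nᴴ * A * (M * Mᴴ) := by simp only [mul_assoc]
    _ = Nᴴ * A := by rw [hM', mul_one]

/-- Integer powers of a matrix with a two-sided inverse. -/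
theorem zpow_eq_of_inv719 {Z W : Matrix n n ℂ} (h1 : Z * W = 1) (k : ℤ) :
    Z ^ k = if 0 ≤ k then Z ^ k.toNat else W ^ (-k).toNat := by
  have hW : Z⁻¹ = W := Matrix.inv_eq_right_inv h1
  rcases k with k | k
  · simp
  · have hneg : ¬ (0 : ℤ) ≤ Int.negSucc k := by simp
    rw [if_neg hneg]
    have e : Int.negSucc k = -((k + 1 : ℕ) : ℤ) := rfl
    rw [e, Matrix.zpow_neg_natCast, ← Matrix.inv_pow', hW, neg_neg, Int.toNat_natCast]

end Fermat.Agent.LT.T7.H719

end
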