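import Fermat.Agent.LT.T7.Reg
import Fermat.Agent.LT.T7.H402.TraceAtomsMatrix
import Fermat.Agent.LT.T7.H822.RegParam
import Fermat.Agent.LT.T7.H719.AtomsAux

/-!
# Row LT, tower T7, leaf T7.L2.2.A `AtomsC561` (SPARE, helper719): the parameters, matrix form

OFF-MAIN.  `regParam_matrix719`: `regParam_of_eigen822` (asset helper822) for matrices, through
the algebra isomorphism `matEnd402` (asset helper402).
-/

set_option autoImplicit false

open scoped Matrix InnerProductSpace ComplexConjugate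

noncomputable section

namespace Fermat.Agent.LT.T7.H719

open Fermat.Agent.LT.T7.H402 Fermat.Agent.LT.T7.H822

variable {n : Type} [Fintype n] [DecidableEq n]

theorem inner_matEnd719 (M : Matrix n n ℂ) (x y : EuclideanSpace ℂ n) :
    ⟪matEnd402 M x, y⟫_ℂ = ⟪x, matEnd402 Mᴴ y⟫_ℂ := by
  rw [matEnd_eq402, matEnd_eq402, Matrix.toEuclideanLin_conjTranspose_eq_adjoint,
    LinearMap.adjoint_inner_right]

theorem matEnd_mulVec719 (M : Matrix n n ℂ) (x : n → ℂ) :
    matEnd402 M (WithLp.toLp 2 x) = WithLp.toLp 2 (M *ᵥ x) := by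
  apply WithLp.ofLp_injective
  rw [matEnd_apply402]

/-- **The parameters at the regular place, matrix form.** -/
theorem regParam_matrix719 (S ρ : Matrix n n ℂ) (q : ℝ) (hq : 1 ≤ q) (hS : Sᴴ = S)
    (hSq : S * S = ((q : ℂ) - 1) • S + (q : ℂ) • (1 : Matrix n n ℂ)) (hρ : ρᴴ * ρ = 1)
    (hz : (ρ * ρ) * S = S * (ρ * ρ)) {b μ : ℂ} {x : n → ℂ} (hx : x ≠ 0)
    (hb : (ρ * ρ) *ᵥ x = b • x) (hμ : (S * ρ) *ᵥ x = μ • x) :
    Fermat.Agent.LT.T7.IsRegParam (Real.sqrt q) b (μ / (Real.sqrt q : ℂ)) := by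
  have hx' : (WithLp.toLp 2 x : EuclideanSpace ℂ n) ≠ 0 := by
    intro h
    apply hx
    have := congrArg WithLp.ofLp h
    simpa using this
  refine regParam_of_eigen822 (V := EuclideanSpace ℂ n) (matEnd402 S) (matEnd402 ρ) q hq
    ?_ ?_ ?_ ?_ hx' ?_ ?_
  · intro u v
    rw [inner_matEnd719, hS]
  · rw [← map_mul, hSq, map_add, map_smul, map_smul, map_one]
  · intro u v
    rw [inner_matEnd719, ← Module.End.mul_apply, ← map_mul, hρ, map_one]
    rfl
  · simp only [← map_mul]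
    rw [hz]
  · rw [← map_mul, matEnd_mulVec719, hb]
    rfl
  · rw [← map_mul, matEnd_mulVec719, hμ]
    rfl

end Fermat.Agent.LT.T7.H719

end
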