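import Fermat.Agent.LT.T7.H561.SpecUpSpec
import Fermat.Agent.LT.T7.H719.AtomsReg

/-!
# Row LT, tower T7, leaf T7.L2.2.A `H561.AtomsC561` (SPARE, helper719) -- OFF-MAIN

`atomsC719 : H561.AtomsC561`, VERBATIM the Prop of `LT/T7/H561/SpecUpSpec.lean` (helper561),
UNCONDITIONAL, Mathlib + the assets `twistedTraceAtomsMatrix402` (helper402) and
`regParam_of_eigen822` (helper822).

The commuting family: `𝒰_j = S_j ρ_j`, `Z_j = ρ_j²`, `Z_j⁻¹ = (ρ_jᴴ)²` (`j ∈ Fin ℓ`), the shift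
`j ↦ j + 1`, `T = B A`.
-/

set_option autoImplicit false

open scoped Matrix

noncomputable section

namespace Fermat.Agent.LT.T7.H719

open Fermat.Agent.LT.T7 Fermat.Agent.LT.T7.H561 Fermat.Agent.LT.T7.H402

variable {n : ℕ}

/-- The generators `𝒰_j = S_j ρ_j`, `Z_j = ρ_j²`, `Z_j⁻¹ = (ρ_jᴴ)²` along the orbit. -/
def gen719 (S ρ : ℕ → Matrix (Fin n) (Fin n) ℂ) (ℓ : ℕ) :
    Fin ℓ ⊕ (Fin ℓ ⊕ Fin ℓ) → Matrix (Fin n) (Fin n) ℂ :=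
  Sum.elim (fun j => S j * ρ j) (Sum.elim (fun j => ρ j * ρ j) (fun j => (ρ j)ᴴ * (ρ j)ᴴ))

/-- The place of a generator. -/
def genIdx719 (ℓ : ℕ) : Fin ℓ ⊕ (Fin ℓ ⊕ Fin ℓ) → Fin ℓ :=
  Sum.elim id (Sum.elim id id)

/-- The local generators at the place `j`. -/
def locSet719 (S ρ : ℕ → Matrix (Fin n) (Fin n) ℂ) (j : ℕ) : Set (Matrix (Fin n) (Fin n) ℂ) :=
  {X | X = S j ∨ X = ρ j ∨ X = (ρ j)ᴴ}

theorem gen_factor719 (S ρ : ℕ → Matrix (Fin n) (Fin n) ℂ) (ℓ : ℕ) (a : Fin ℓ ⊕ (Fin ℓ ⊕ Fin ℓ)) :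
    ∃ X₁ X₂ : Matrix (Fin n) (Fin n) ℂ, X₁ ∈ locSet719 S ρ (genIdx719 ℓ a) ∧
      X₂ ∈ locSet719 S ρ (genIdx719 ℓ a) ∧ gen719 S ρ ℓ a = X₁ * X₂ := by
  rcases a with j | j | j
  · exact ⟨S j, ρ j, Or.inl rfl, Or.inr (Or.inl rfl), rfl⟩
  · exact ⟨ρ j, ρ j, Or.inr (Or.inl rfl), Or.inr (Or.inl rfl), rfl⟩
  · exact ⟨(ρ j)ᴴ, (ρ j)ᴴ, Or.inr (Or.inr rfl), Or.inr (Or.inr rfl), rfl⟩

theorem commute_prod719 {X₁ X₂ Y₁ Y₂ : Matrix (Fin n) (Fin n) ℂ} (h11 : Commute X₁ Y₁)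
    (h12 : Commute X₁ Y₂) (h21 : Commute X₂ Y₁) (h22 : Commute X₂ Y₂) :
    Commute (X₁ * X₂) (Y₁ * Y₂) :=
  (h11.mul_right h12).mul_left (h21.mul_right h22)

section Block

variable {ℓ : ℕ} {q : ℝ} {A B : Matrix (Fin n) (Fin n) ℂ} {S ρ : ℕ → Matrix (Fin n) (Fin n) ℂ}

/-- Local generators at different places commute. -/
theorem commute_loc719 (h : IsIwBlock561 ℓ q A B S ρ) {j j' : ℕ} (hj : j < ℓ) (hj' : j' < ℓ)
    (hne : j ≠ j') {X Y : Matrix (Fin n) (Fin n) ℂ} (hX : X ∈ locSet719 S ρ j)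
    (hY : Y ∈ locSet719 S ρ j') : Commute X Y := by
  have cSS : Commute (S j) (S j') := h.comm_SS j j' hj hj' hne
  have cSρ : Commute (S j) (ρ j') := h.comm_Sρ j j' hj hj' hne
  have cρS : Commute (ρ j) (S j') := (h.comm_Sρ j' j hj' hj (Ne.symm hne)).symm
  have cρρ : Commute (ρ j) (ρ j') := h.comm_ρρ j j' hj hj' hne
  have cSρH : Commute (S j) (ρ j')ᴴ := commute_conjTranspose719 (h.ρ_unit j') cSρ
  have cρρH : Commute (ρ j) (ρ j')ᴴ := commute_conjTranspose719 (h.ρ_unit j') cρρ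
  have cρHS : Commute (ρ j)ᴴ (S j') := (commute_conjTranspose719 (h.ρ_unit j) cρS.symm).symm
  have cρHρ : Commute (ρ j)ᴴ (ρ j') := (commute_conjTranspose719 (h.ρ_unit j) cρρ.symm).symm
  have cρHρH : Commute (ρ j)ᴴ (ρ j')ᴴ := commute_conjTranspose719 (h.ρ_unit j') cρHρ
  rcases hX with rfl | rfl | rfl <;> rcases hY with rfl | rfl | rfl
  · exact cSS
  · exact cSρ
  · exact cSρH
  · exact cρS
  · exact cρρ
  · exact cρρH
  · exact cρHS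
  · exact cρHρ
  · exact cρHρH

/-- `Z_j` commutes with the local generators at `j`. -/
theorem commute_Z_loc719 (h : IsIwBlock561 ℓ q A B S ρ) (j : ℕ)
    {X : Matrix (Fin n) (Fin n) ℂ} (hX : X ∈ locSet719 S ρ j) : Commute (ρ j * ρ j) X := by
  have hρρ : Commute (ρ j) (ρ j) := Commute.refl _
  have hρH : Commute (ρ j) (ρ j)ᴴ := commute_conjTranspose719 (h.ρ_unit j) hρρ
  rcases hX with rfl | rfl | rfl
  · exact h.ρ_central j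
  · exact hρρ.mul_left hρρ
  · exact hρH.mul_left hρH

/-- `Z_j⁻¹` commutes with the local generators at `j`. -/
theorem commute_Zinv_loc719 (h : IsIwBlock561 ℓ q A B S ρ) (j : ℕ)
    {X : Matrix (Fin n) (Fin n) ℂ} (hX : X ∈ locSet719 S ρ j) :
    Commute ((ρ j)ᴴ * (ρ j)ᴴ) X := by
  have hρρ : Commute (ρ j) (ρ j) := Commute.refl _
  have hρH : Commute (ρ j) (ρ j)ᴴ := commute_conjTranspose719 (h.ρ_unit j) hρρ
  have hHH : Commute (ρ j)ᴴ (ρ j)ᴴ := Commute.refl _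
  have hZS : Commute (S j) (ρ j * ρ j) := (h.ρ_central j).symm
  -- `S` commutes with `Z⁻¹ = (Zᴴ)`
  have hZu : (ρ j * ρ j)ᴴ * (ρ j * ρ j) = 1 := by
    rw [Matrix.conjTranspose_mul]
    calc (ρ j)ᴴ * (ρ j)ᴴ * (ρ j * ρ j) = (ρ j)ᴴ * ((ρ j)ᴴ * ρ j) * ρ j := by
          simp only [mul_assoc]
      _ = 1 := by rw [h.ρ_unit j, mul_one, h.ρ_unit j]
  have hSZH : Commute (S j) (ρ j * ρ j)ᴴ := commute_conjTranspose719 hZu hZS
  rw [Matrix.conjTranspose_mul] at hSZH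
  rcases hX with rfl | rfl | rfl
  · exact hSZH.symm
  · exact hρH.symm.mul_left hρH.symm
  · exact hHH.mul_left hHH

/-- The generators commute. -/
theorem commute_gen719 (h : IsIwBlock561 ℓ q A B S ρ) (a b : Fin ℓ ⊕ (Fin ℓ ⊕ Fin ℓ)) :
    gen719 S ρ ℓ a * gen719 S ρ ℓ b = gen719 S ρ ℓ b * gen719 S ρ ℓ a := by
  by_cases hne : ((genIdx719 ℓ a : Fin ℓ) : ℕ) = ((genIdx719 ℓ b : Fin ℓ) : ℕ)
  · -- the same place
    have key : ∀ a b : Fin ℓ ⊕ (Fin ℓ ⊕ Fin ℓ),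
        ((genIdx719 ℓ a : Fin ℓ) : ℕ) = ((genIdx719 ℓ b : Fin ℓ) : ℕ) →
        (∃ j : Fin ℓ, a = Sum.inr (Sum.inl j) ∨ a = Sum.inr (Sum.inr j)) →
        Commute (gen719 S ρ ℓ a) (gen719 S ρ ℓ b) := by
      intro a b hab ha
      obtain ⟨Y₁, Y₂, hY₁, hY₂, hY⟩ := gen_factor719 S ρ ℓ b
      rw [← hab] at hY₁ hY₂
      rw [hY]
      obtain ⟨j, rfl | rfl⟩ := ha
      · exact (commute_Z_loc719 h j hY₁).mul_right (commute_Z_loc719 h j hY₂)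
      · exact (commute_Zinv_loc719 h j hY₁).mul_right (commute_Zinv_loc719 h j hY₂)
    rcases a with j | j | j
    · rcases b with j' | j' | j'
      · have : j = j' := Fin.ext hne
        rw [this]
      · exact ((key _ _ hne.symm ⟨j', Or.inl rfl⟩).symm).eq
      · exact ((key _ _ hne.symm ⟨j', Or.inr rfl⟩).symm).eq
    · exact (key _ _ hne ⟨j, Or.inl rfl⟩).eq
    · exact (key _ _ hne ⟨j, Or.inr rfl⟩).eq
  · obtain ⟨X₁, X₂, hX₁, hX₂, hX⟩ := gen_factor719 S ρ ℓ a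
    obtain ⟨Y₁, Y₂, hY₁, hY₂, hY⟩ := gen_factor719 S ρ ℓ b
    rw [hX, hY]
    have c : ∀ {X Y : Matrix (Fin n) (Fin n) ℂ}, X ∈ locSet719 S ρ (genIdx719 ℓ a) →
        Y ∈ locSet719 S ρ (genIdx719 ℓ b) → Commute X Y :=
      fun hX hY => commute_loc719 h (genIdx719 ℓ a).isLt (genIdx719 ℓ b).isLt hne hX hY
    exact (commute_prod719 (c hX₁ hY₁) (c hX₁ hY₂) (c hX₂ hY₁) (c hX₂ hY₂)).eq

/-- `B` commutes with the local generators. -/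
theorem commute_B_loc719 (h : IsIwBlock561 ℓ q A B S ρ) (j : ℕ)
    {X : Matrix (Fin n) (Fin n) ℂ} (hX : X ∈ locSet719 S ρ j) : Commute B X := by
  rcases hX with rfl | rfl | rfl
  · exact h.B_S j
  · exact h.B_ρ j
  · exact commute_conjTranspose719 (h.ρ_unit j) (h.B_ρ j)

theorem intertwine_mul719 {A X₁ X₂ Y₁ Y₂ : Matrix (Fin n) (Fin n) ℂ} (h1 : A * X₁ = Y₁ * A)
    (h2 : A * X₂ = Y₂ * A) : A * (X₁ * X₂) = (Y₁ * Y₂) * A := by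
  rw [← mul_assoc, h1, mul_assoc, h2, mul_assoc]

theorem intertwine_pow719 {A X Y : Matrix (Fin n) (Fin n) ℂ} (h : A * X = Y * A) (m : ℕ) :
    A * X ^ m = Y ^ m * A := by
  induction m with
  | zero => simp
  | succ m ih => rw [pow_succ, pow_succ, ← mul_assoc, ih, mul_assoc, h, mul_assoc]

/-- `A` moves the generators at `j` to the generators at `j + 1`. -/
theorem A_gen719 (h : IsIwBlock561 ℓ q A B S ρ) (j : ℕ) :
    A * (S j * ρ j) = (S (j + 1) * ρ (j + 1)) * A ∧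
    A * (ρ j * ρ j) = (ρ (j + 1) * ρ (j + 1)) * A ∧
    A * ((ρ j)ᴴ * (ρ j)ᴴ) = ((ρ (j + 1))ᴴ * (ρ (j + 1))ᴴ) * A := by
  have hH : A * (ρ j)ᴴ = (ρ (j + 1))ᴴ * A :=
    intertwine_conjTranspose719 (h.ρ_unit j) (h.ρ_unit (j + 1)) (h.A_ρ j)
  exact ⟨intertwine_mul719 (h.A_S j) (h.A_ρ j), intertwine_mul719 (h.A_ρ j) (h.A_ρ j),
    intertwine_mul719 hH hH⟩

/-- `B` commutes with the generators at `j`. -/
theorem B_gen719 (h : IsIwBlock561 ℓ q A B S ρ) (j : ℕ) :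
    Commute B (S j * ρ j) ∧ Commute B (ρ j * ρ j) ∧ Commute B ((ρ j)ᴴ * (ρ j)ᴴ) := by
  have hH : Commute B (ρ j)ᴴ := commute_conjTranspose719 (h.ρ_unit j) (h.B_ρ j)
  have hS : Commute B (S j) := h.B_S j
  have hρ : Commute B (ρ j) := h.B_ρ j
  exact ⟨hS.mul_right hρ, hρ.mul_right hρ, hH.mul_right hH⟩

end Block

section Shift

variable {ℓ' : ℕ} {q : ℝ} {A B : Matrix (Fin n) (Fin n) ℂ} {S ρ : ℕ → Matrix (Fin n) (Fin n) ℂ}

/-- The shift `j ↦ j + 1` on the generators. -/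
def shift719 (ℓ' : ℕ) : Equiv.Perm (Fin (ℓ' + 1) ⊕ (Fin (ℓ' + 1) ⊕ Fin (ℓ' + 1))) :=
  Equiv.sumCongr (finRotate (ℓ' + 1)) (Equiv.sumCongr (finRotate (ℓ' + 1)) (finRotate (ℓ' + 1)))

/-- Periodicity: the matrices at `finRotate j` are the matrices at `j + 1`. -/
theorem per_rotate719 (h : IsIwBlock561 (ℓ' + 1) q A B S ρ) (j : Fin (ℓ' + 1)) :
    S ((finRotate (ℓ' + 1) j : Fin (ℓ' + 1)) : ℕ) = S ((j : ℕ) + 1) ∧
    ρ ((finRotate (ℓ' + 1) j : Fin (ℓ' + 1)) : ℕ) = ρ ((j : ℕ) + 1) := by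
  rw [coe_finRotate]
  by_cases hj : j = Fin.last ℓ'
  · rw [if_pos hj]
    have e : (j : ℕ) + 1 = 0 + (ℓ' + 1) := by
      rw [hj, Fin.val_last, zero_add]
    rw [e, h.per_S 0, h.per_ρ 0]
    exact ⟨rfl, rfl⟩
  · rw [if_neg hj]
    exact ⟨rfl, rfl⟩

/-- The twisting relation `T U_a = U_{σ a} T` for `T = B A`. -/
theorem twist_gen719 (h : IsIwBlock561 (ℓ' + 1) q A B S ρ)
    (a : Fin (ℓ' + 1) ⊕ (Fin (ℓ' + 1) ⊕ Fin (ℓ' + 1))) :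
    (B * A) * gen719 S ρ (ℓ' + 1) a = gen719 S ρ (ℓ' + 1) (shift719 ℓ' a) * (B * A) := by
  have key : ∀ {X Y : Matrix (Fin n) (Fin n) ℂ}, A * X = Y * A → Commute B Y →
      (B * A) * X = Y * (B * A) := by
    intro X Y h1 h2
    rw [mul_assoc, h1, ← mul_assoc, h2.eq, mul_assoc]
  rcases a with j | j | j
  · show (B * A) * (S j * ρ j) = (S ((finRotate (ℓ' + 1) j : Fin (ℓ' + 1)) : ℕ)
        * ρ ((finRotate (ℓ' + 1) j : Fin (ℓ' + 1)) : ℕ)) * (B * A)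
    rw [(per_rotate719 h j).1, (per_rotate719 h j).2]
    exact key (A_gen719 h j).1 (B_gen719 h _).1
  · show (B * A) * (ρ j * ρ j) = (ρ ((finRotate (ℓ' + 1) j : Fin (ℓ' + 1)) : ℕ)
        * ρ ((finRotate (ℓ' + 1) j : Fin (ℓ' + 1)) : ℕ)) * (B * A)
    rw [(per_rotate719 h j).2]
    exact key (A_gen719 h j).2.1 (B_gen719 h _).2.1
  · show (B * A) * ((ρ j)ᴴ * (ρ j)ᴴ) = ((ρ ((finRotate (ℓ' + 1) j : Fin (ℓ' + 1)) : ℕ))ᴴ
        * (ρ ((finRotate (ℓ' + 1) j : Fin (ℓ' + 1)) : ℕ))ᴴ) * (B * A)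
    rw [(per_rotate719 h j).2]
    exact key (A_gen719 h j).2.2 (B_gen719 h _).2.2

/-- The generators at the place `0`. -/
theorem gen_zero719 (S ρ : ℕ → Matrix (Fin n) (Fin n) ℂ) (ℓ' : ℕ) :
    gen719 S ρ (ℓ' + 1) (Sum.inl 0) = S 0 * ρ 0 ∧
    gen719 S ρ (ℓ' + 1) (Sum.inr (Sum.inl 0)) = ρ 0 * ρ 0 ∧
    gen719 S ρ (ℓ' + 1) (Sum.inr (Sum.inr 0)) = (ρ 0)ᴴ * (ρ 0)ᴴ := by
  simp [gen719]

/-- The generators at the last place. -/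
theorem gen_last719 (S ρ : ℕ → Matrix (Fin n) (Fin n) ℂ) (ℓ' : ℕ) :
    gen719 S ρ (ℓ' + 1) (Sum.inl (Fin.last ℓ')) = S ℓ' * ρ ℓ' ∧
    gen719 S ρ (ℓ' + 1) (Sum.inr (Sum.inl (Fin.last ℓ'))) = ρ ℓ' * ρ ℓ' ∧
    gen719 S ρ (ℓ' + 1) (Sum.inr (Sum.inr (Fin.last ℓ'))) = (ρ ℓ')ᴴ * (ρ ℓ')ᴴ := by
  simp [gen719]

theorem shift_last719 (ℓ' : ℕ) :
    shift719 ℓ' (Sum.inl (Fin.last ℓ')) = Sum.inl 0 ∧
    shift719 ℓ' (Sum.inr (Sum.inl (Fin.last ℓ'))) = Sum.inr (Sum.inl 0) ∧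
    shift719 ℓ' (Sum.inr (Sum.inr (Fin.last ℓ'))) = Sum.inr (Sum.inr 0) := by
  simp [shift719]

/-- `A` moves the generators at the last place to the generators at the place `0`. -/
theorem A_last719 (h : IsIwBlock561 (ℓ' + 1) q A B S ρ) :
    A * (S ℓ' * ρ ℓ') = (S 0 * ρ 0) * A ∧
    A * (ρ ℓ' * ρ ℓ') = (ρ 0 * ρ 0) * A ∧
    A * ((ρ ℓ')ᴴ * (ρ ℓ')ᴴ) = ((ρ 0)ᴴ * (ρ 0)ᴴ) * A := by
  have hS : S (ℓ' + 1) = S 0 := by
    have := h.per_S 0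
    rwa [zero_add] at this
  have hρ : ρ (ℓ' + 1) = ρ 0 := by
    have := h.per_ρ 0
    rwa [zero_add] at this
  have := A_gen719 h ℓ'
  rwa [hS, hρ] at this

end Shift

/-- **LEAF T7.L2.2.A = ATOMS**, VERBATIM. -/
theorem atomsC719 : AtomsC561 := by
  intro n ℓ q A B S ρ hℓ hq h
  obtain ⟨ℓ', rfl⟩ : ∃ ℓ', ℓ = ℓ' + 1 := ⟨ℓ - 1, by omega⟩
  classical
  obtain ⟨Q, χ, t, hQ, htr, ht, hχ⟩ :=
    twistedTraceAtomsMatrix402 (shift719 ℓ') (gen719 S ρ (ℓ' + 1)) (commute_gen719 h) (B * A)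
      (twist_gen719 h)
  obtain ⟨hu0, hz0, hw0⟩ := gen_zero719 S ρ ℓ'
  obtain ⟨huL, hzL, hwL⟩ := gen_last719 S ρ ℓ'
  obtain ⟨hsu, hsz, hsw⟩ := shift_last719 ℓ'
  obtain ⟨hAu, hAz, hAw⟩ := A_last719 h
  have hsq : (0 : ℝ) < Real.sqrt q := Real.sqrt_pos.2 (by linarith)
  have hsqC : ((Real.sqrt q : ℝ) : ℂ) ≠ 0 := by exact_mod_cast hsq.ne'
  -- the inverse of `Z₀`
  have hZW : (ρ 0 * ρ 0) * ((ρ 0)ᴴ * (ρ 0)ᴴ) = 1 := by
    have h1 := mul_conjTranspose_of719 (h.ρ_unit 0)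
    calc (ρ 0 * ρ 0) * ((ρ 0)ᴴ * (ρ 0)ᴴ) = ρ 0 * (ρ 0 * (ρ 0)ᴴ) * (ρ 0)ᴴ := by
          simp only [mul_assoc]
      _ = 1 := by rw [h1, mul_one, h1]
  have hWZ : ((ρ 0)ᴴ * (ρ 0)ᴴ) * (ρ 0 * ρ 0) = 1 := mul_eq_one_comm.1 hZW
  -- the characters of the atoms with `t ≠ 0`
  have hinv : ∀ a, t a ≠ 0 → χ a (Sum.inr (Sum.inl 0)) * χ a (Sum.inr (Sum.inr 0)) = 1 := by
    intro a ha
    obtain ⟨-, x, hx, hxe⟩ := hχ a ha
    have e1 := hxe (Sum.inr (Sum.inl 0))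
    have e2 := hxe (Sum.inr (Sum.inr 0))
    rw [hz0] at e1
    rw [hw0] at e2
    have e3 : x = (χ a (Sum.inr (Sum.inl 0)) * χ a (Sum.inr (Sum.inr 0))) • x := by
      calc x = (((ρ 0)ᴴ * (ρ 0)ᴴ) * (ρ 0 * ρ 0)) *ᵥ x := by rw [hWZ, Matrix.one_mulVec]
        _ = ((ρ 0)ᴴ * (ρ 0)ᴴ) *ᵥ ((ρ 0 * ρ 0) *ᵥ x) := by rw [Matrix.mulVec_mulVec]
        _ = ((ρ 0)ᴴ * (ρ 0)ᴴ) *ᵥ (χ a (Sum.inr (Sum.inl 0)) • x) := by rw [e1]
        _ = χ a (Sum.inr (Sum.inl 0)) • (((ρ 0)ᴴ * (ρ 0)ᴴ) *ᵥ x) := by rw [Matrix.mulVec_smul]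
        _ = (χ a (Sum.inr (Sum.inl 0)) * χ a (Sum.inr (Sum.inr 0))) • x := by
            rw [e2, smul_smul]
    by_contra hne
    apply hx
    have e4 : ((1 : ℂ) - χ a (Sum.inr (Sum.inl 0)) * χ a (Sum.inr (Sum.inr 0))) • x = 0 := by
      rw [sub_smul, one_smul, ← e3, sub_self]
    rcases smul_eq_zero.1 e4 with h5 | h5
    · exact absurd (sub_eq_zero.1 h5).symm hne
    · exact h5
  refine ⟨Q, t, fun a => if t a = 0 then 1 else χ a (Sum.inr (Sum.inl 0)),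
    fun a => if t a = 0 then 1 else χ a (Sum.inl 0) / ((Real.sqrt q : ℝ) : ℂ), hQ, ht, ?_, ?_⟩
  · intro a
    by_cases h0 : t a = 0
    · simp only [if_pos h0]
      refine ⟨norm_one, ?_, Or.inl norm_one⟩
      rw [norm_one]
      exact Real.one_le_sqrt.2 hq
    · simp only [if_neg h0]
      obtain ⟨-, x, hx, hxe⟩ := hχ a h0
      have e1 := hxe (Sum.inr (Sum.inl 0))
      have e2 := hxe (Sum.inl 0)
      rw [hz0] at e1
      rw [hu0] at e2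
      exact regParam_matrix719 (S 0) (ρ 0) q hq (h.S_herm 0) (h.S_quad 0) (h.ρ_unit 0)
        (h.ρ_central 0) hx e1 e2
  · intro k m
    -- the generator `g` and the exponent `N` with `Z₀ ^ k = G₀ ^ N`
    obtain ⟨gL, g0, N, hgσ, hG0, hAg, hb⟩ : ∃ (gL g0 : Fin (ℓ' + 1) ⊕ (Fin (ℓ' + 1) ⊕ Fin (ℓ' + 1)))
        (N : ℕ), shift719 ℓ' gL = g0 ∧
        (ρ 0 * ρ 0) ^ k = gen719 S ρ (ℓ' + 1) g0 ^ N ∧
        A * gen719 S ρ (ℓ' + 1) gL = gen719 S ρ (ℓ' + 1) g0 * A ∧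
        ∀ a, t a ≠ 0 → χ a g0 ^ N = χ a (Sum.inr (Sum.inl 0)) ^ k := by
      have hzp := zpow_eq_of_inv719 hZW k
      by_cases hk : 0 ≤ k
      · refine ⟨Sum.inr (Sum.inl (Fin.last ℓ')), Sum.inr (Sum.inl 0), k.toNat, hsz, ?_, ?_, ?_⟩
        · rw [hzp, if_pos hk, hz0]
        · rw [hzL, hz0]
          exact hAz
        · intro a _
          conv_rhs => rw [← Int.toNat_of_nonneg hk]
          rw [zpow_natCast]
      · refine ⟨Sum.inr (Sum.inr (Fin.last ℓ')), Sum.inr (Sum.inr 0), (-k).toNat, hsw, ?_, ?_, ?_⟩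
        · rw [hzp, if_neg hk, hw0]
        · rw [hwL, hw0]
          exact hAw
        · intro a ha
          have hk' : 0 ≤ -k := by omega
          have e1 : χ a (Sum.inr (Sum.inr 0)) = (χ a (Sum.inr (Sum.inl 0)))⁻¹ :=
            eq_inv_of_mul_eq_one_right (hinv a ha)
          have e2 : k = -((-k).toNat : ℤ) := by
            rw [Int.toNat_of_nonneg hk', neg_neg]
          conv_rhs => rw [e2]
          rw [zpow_neg, zpow_natCast, e1, inv_pow]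
    -- the trace in terms of the word
    have hword : B * (ρ 0 * ρ 0) ^ k * (((Real.sqrt q : ℝ) : ℂ)⁻¹ • (S 0 * ρ 0)) ^ m * A
        = (((Real.sqrt q : ℝ) : ℂ)⁻¹) ^ m • ((B * A) *
            ((List.replicate N gL ++ List.replicate m (Sum.inl (Fin.last ℓ'))).map
              (gen719 S ρ (ℓ' + 1))).prod) := by
      rw [List.map_append, List.prod_append, List.map_replicate, List.map_replicate,
        List.prod_replicate, List.prod_replicate, huL, hG0, smul_pow]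
      have e1 : A * (S ℓ' * ρ ℓ') ^ m = (S 0 * ρ 0) ^ m * A := intertwine_pow719 hAu m
      have e2 : A * gen719 S ρ (ℓ' + 1) gL ^ N = gen719 S ρ (ℓ' + 1) g0 ^ N * A :=
        intertwine_pow719 hAg N
      calc B * gen719 S ρ (ℓ' + 1) g0 ^ N * ((((Real.sqrt q : ℝ) : ℂ)⁻¹) ^ m • (S 0 * ρ 0) ^ m) * A
          = (((Real.sqrt q : ℝ) : ℂ)⁻¹) ^ m •
              (B * (gen719 S ρ (ℓ' + 1) g0 ^ N * ((S 0 * ρ 0) ^ m * A))) := by
            simp only [Matrix.mul_smul, Matrix.smul_mul, mul_assoc]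
        _ = (((Real.sqrt q : ℝ) : ℂ)⁻¹) ^ m •
              (B * (gen719 S ρ (ℓ' + 1) g0 ^ N * (A * (S ℓ' * ρ ℓ') ^ m))) := by rw [e1]
        _ = (((Real.sqrt q : ℝ) : ℂ)⁻¹) ^ m •
              (B * ((gen719 S ρ (ℓ' + 1) g0 ^ N * A) * (S ℓ' * ρ ℓ') ^ m)) := by
            simp only [mul_assoc]
        _ = (((Real.sqrt q : ℝ) : ℂ)⁻¹) ^ m •
              (B * ((A * gen719 S ρ (ℓ' + 1) gL ^ N) * (S ℓ' * ρ ℓ') ^ m)) := by rw [e2]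
        _ = (((Real.sqrt q : ℝ) : ℂ)⁻¹) ^ m •
              ((B * A) * (gen719 S ρ (ℓ' + 1) gL ^ N * (S ℓ' * ρ ℓ') ^ m)) := by
            simp only [mul_assoc]
    rw [hword, Matrix.trace_smul, htr, smul_eq_mul, Finset.mul_sum]
    refine Finset.sum_congr rfl fun a _ => ?_
    by_cases h0 : t a = 0
    · simp only [h0, zero_mul, mul_zero]
    · simp only [if_neg h0]
      obtain ⟨hinvar, -⟩ := hχ a h0
      rw [List.map_append, List.prod_append, List.map_replicate, List.map_replicate,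
        List.prod_replicate, List.prod_replicate]
      have e1 : χ a gL = χ a g0 := by rw [← hgσ, hinvar]
      have e2 : χ a (Sum.inl (Fin.last ℓ')) = χ a (Sum.inl 0) := by rw [← hsu, hinvar]
      rw [e1, e2, hb a h0, div_pow, div_eq_mul_inv, inv_pow]
      ring

example : AtomsC561 := atomsC719

end Fermat.Agent.LT.T7.H719

end
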